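import Fermat.Agent.ArtinAverage.Mean
import Fermat.Agent.BurgessGeneral.PrimitiveRoot
import Fermat.Agent.AlmostAllPrimitiveRoot.Moments
import Fermat.Agent.Forms3.RepresentationBound
import Mathlib.Algebra.Order.Chebyshev

/-!
# Primitive roots `a ≤ N` on average over `p ≤ x`

Characters count the primitive roots `a ≤ N` modulo `p`; high moments and the large sieve bound
what is left after the main term, summed over `p ≤ x`.
-/

set_option autoImplicit false

noncomputable section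

namespace FA.ArtinAverage

open Finset FA.FermatCount FA.BurgessGeneral
open FA.AlmostAllRoot (repCount)
open FA.BombieriVinogradov (primChars mem_primChars)
open scoped Classical

variable {p : ℕ} [Fact p.Prime]

theorem noPrimePower_iff (a : ZMod p) : NoPrimePower a ↔ orderOf a = p - 1 := by
  have hp := (Fact.out : p.Prime).two_le
  refine ⟨orderOf_eq_of_noPrimePower, fun h => ⟨fun h0 => ?_, fun q hq ⟨y, hy⟩ => ?_⟩⟩
  · rw [h0, orderOf_zero] at h
    omega
  · have hqp := Nat.prime_of_mem_primeFactors hq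
    obtain ⟨e, he⟩ := Nat.dvd_of_mem_primeFactors hq
    have hy0 : y ≠ 0 := fun e0 => by
      rw [e0, zero_pow hqp.ne_zero] at hy
      rw [← hy, orderOf_zero] at h
      omega
    have he0 : 0 < e := Nat.pos_of_ne_zero fun e0 => by rw [e0, mul_zero] at he; omega
    have h1 : a ^ e = 1 := by
      rw [← hy, ← pow_mul, ← he]
      exact ZMod.pow_card_sub_one_eq_one hy0
    have h2 := Nat.le_of_dvd he0 (h ▸ orderOf_dvd_of_pow_eq_one h1)
    rw [he] at h2
    have := Nat.mul_le_mul_right e hqp.two_le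
    omega

/-- The number of the primitive roots `a ≤ N` modulo `p`. -/
def rootCount (p N : ℕ) : ℕ :=
  #((Ioc 0 N).filter fun a : ℕ => orderOf (a : ZMod p) = p - 1)

/-- The `2 k`-th moment of the character sums to the modulus `p`. -/
def charMoment (p N k : ℕ) : ℝ :=
  if h : p = 0 then 0 else
    haveI : NeZero p := ⟨h⟩
    ∑ χ ∈ primChars p, ‖∑ a ∈ Ioc 0 N, χ (a : ZMod p)‖ ^ (2 * k)

/-- **The count for one prime.** -/
theorem abs_rootCount_sub_le (N : ℕ) {k : ℕ} (hk : 1 ≤ k) :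
    ∃ E : ℝ, |(rootCount p N : ℝ) - genShare (p - 1) * N| ≤ (N : ℝ) / p + E ∧ 0 ≤ E ∧
      E ^ (2 * k) ≤ ((2 : ℝ) ^ (p - 1).primeFactors.card) ^ (2 * k) * charMoment p N k := by
  have hp := (Fact.out : p.Prime)
  obtain ⟨Q, hQ⟩ : ∃ Q, Q = (p - 1).primeFactors := ⟨_, rfl⟩
  obtain ⟨e, he⟩ : ∃ e : Finset ℕ → ℝ, e = fun T => ((∏ q ∈ T, q : ℕ) : ℝ)⁻¹ *
      ∑ χ ∈ (killed (ZMod p) (∏ q ∈ T, q)).erase 1, ‖∑ a ∈ Ioc 0 N, χ (a : ZMod p)‖ := ⟨_, rfl⟩
  have hT : ∀ T ∈ Q.powerset, 0 < ∏ q ∈ T, q ∧ (∏ q ∈ T, q) ∣ p - 1 := fun T hT => by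
    rw [hQ, mem_powerset] at hT
    exact ⟨prod_pos fun q hq => (Nat.prime_of_mem_primeFactors (hT hq)).pos,
      (prod_dvd_prod_of_subset _ _ _ hT).trans (Nat.prod_primeFactors_dvd _)⟩
  have he0 : ∀ T ∈ Q.powerset, 0 ≤ e T := fun T _ => by rw [he]; positivity
  refine ⟨∑ T ∈ Q.powerset, e T, ?_, sum_nonneg he0, ?_⟩
  · have hid : (rootCount p N : ℂ) = ∑ T ∈ Q.powerset, (-1 : ℂ) ^ T.card *
        ((∑ χ ∈ killed (ZMod p) (∏ q ∈ T, q), ∑ a ∈ Ioc 0 N, χ (a : ZMod p)) /
          ((∏ q ∈ T, q : ℕ) : ℂ)) := by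
      rw [rootCount, card_filter, Nat.cast_sum,
        sum_congr rfl fun (a : ℕ) _ =>
          show (((if orderOf (a : ZMod p) = p - 1 then 1 else 0) : ℕ) : ℂ) =
          if NoPrimePower (a : ZMod p) then 1 else 0 by
            rw [Nat.cast_ite, Nat.cast_one, Nat.cast_zero]
            exact if_congr (noPrimePower_iff _).symm rfl rfl,
        sum_congr rfl fun (a : ℕ) _ => indicator_eq (a : ZMod p), ← hQ, sum_comm]
      refine sum_congr rfl fun T _ => ?_
      rw [← mul_sum, ← sum_div, sum_comm]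
    have hone : ∑ a ∈ Ioc 0 N, (1 : MulChar (ZMod p) ℂ) (a : ZMod p) = ((N - N / p : ℕ) : ℂ) := by
      rw [sum_congr rfl fun (a : ℕ) _ => show (1 : MulChar (ZMod p) ℂ) (a : ZMod p) =
          if ¬ p ∣ a then 1 else 0 by
        split_ifs with h
        · rw [(ZMod.natCast_eq_zero_iff a p).2 h, MulChar.map_zero]
        · exact MulChar.one_apply (Ne.isUnit fun h0 => h ((ZMod.natCast_eq_zero_iff a p).1 h0)),
        ← sum_filter, sum_const, nsmul_one]
      congr 1
      have h := card_filter_add_card_filter_not (s := Ioc 0 N) (fun a => p ∣ a)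
      rw [Nat.Ioc_filter_dvd_card_eq_div, Nat.card_Ioc] at h
      omega
    have hsplit : ∀ T ∈ Q.powerset, (-1 : ℂ) ^ T.card *
        ((∑ χ ∈ killed (ZMod p) (∏ q ∈ T, q), ∑ a ∈ Ioc 0 N, χ (a : ZMod p)) /
          ((∏ q ∈ T, q : ℕ) : ℂ)) = (∏ q ∈ T, -(1 / (q : ℂ))) * ((N - N / p : ℕ) : ℂ) +
        (-1 : ℂ) ^ T.card * ((∑ χ ∈ (killed (ZMod p) (∏ q ∈ T, q)).erase 1,
          ∑ a ∈ Ioc 0 N, χ (a : ZMod p)) / ((∏ q ∈ T, q : ℕ) : ℂ)) := by
      intro T _
      rw [← add_sum_erase _ _ one_mem_killed, hone, prod_neg, prod_div_distrib, prod_const_one,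
        Nat.cast_prod]
      ring
    rw [sum_congr rfl hsplit, sum_add_distrib, ← sum_mul, ← prod_one_add] at hid
    have hmain : (∏ q ∈ Q, (1 + -(1 / (q : ℂ)))) = ((genShare (p - 1) : ℝ) : ℂ) := by
      rw [genShare, ← hQ, Complex.ofReal_prod]
      exact prod_congr rfl fun q _ => by push_cast; ring
    rw [hmain] at hid
    have hdiff : ((rootCount p N : ℝ) - genShare (p - 1) * (N - N / p : ℕ) : ℝ) =
        ‖(rootCount p N : ℂ) - ((genShare (p - 1) : ℝ) : ℂ) * ((N - N / p : ℕ) : ℂ)‖ ∨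
      ((rootCount p N : ℝ) - genShare (p - 1) * (N - N / p : ℕ) : ℝ) =
        -‖(rootCount p N : ℂ) - ((genShare (p - 1) : ℝ) : ℂ) * ((N - N / p : ℕ) : ℂ)‖ := by
      rw [show (rootCount p N : ℂ) - ((genShare (p - 1) : ℝ) : ℂ) * ((N - N / p : ℕ) : ℂ) =
        ((((rootCount p N : ℝ) - genShare (p - 1) * (N - N / p : ℕ)) : ℝ) : ℂ) by push_cast; ring,
        Complex.norm_real, Real.norm_eq_abs]
      rcases abs_choice ((rootCount p N : ℝ) - genShare (p - 1) * (N - N / p : ℕ)) with h | h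
      · exact Or.inl h.symm
      · exact Or.inr (by linarith)
    have hnorm : ‖(rootCount p N : ℂ) - ((genShare (p - 1) : ℝ) : ℂ) * ((N - N / p : ℕ) : ℂ)‖ ≤
        ∑ T ∈ Q.powerset, e T := by
      rw [hid, add_sub_cancel_left]
      refine norm_sum_le_of_le _ fun T hT' => ?_
      rw [he]
      simp only [norm_mul, norm_pow, norm_neg, norm_one, one_pow, one_mul, norm_div,
        Complex.norm_natCast, inv_mul_eq_div]
      exact div_le_div_of_nonneg_right (norm_sum_le _ _) (Nat.cast_nonneg _)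
    have hg0 : 0 ≤ genShare (p - 1) := prod_nonneg fun q hq =>
      (factor_bounds (Nat.prime_of_mem_primeFactors hq)).1
    have hg1 : genShare (p - 1) ≤ 1 :=
      (prod_sub_le fun q hq => Nat.prime_of_mem_primeFactors hq).2
    have hcast : ((N - N / p : ℕ) : ℝ) = (N : ℝ) - ((N / p : ℕ) : ℝ) :=
      Nat.cast_sub (Nat.div_le_self N p)
    have hd : genShare (p - 1) * ((N / p : ℕ) : ℝ) ≤ (N : ℝ) / p :=
      le_trans (mul_le_of_le_one_left (Nat.cast_nonneg _) hg1) Nat.cast_div_le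
    have hd0 : 0 ≤ genShare (p - 1) * ((N / p : ℕ) : ℝ) := mul_nonneg hg0 (Nat.cast_nonneg _)
    rw [hcast, mul_sub] at hdiff
    rw [abs_le]
    rcases hdiff with h | h <;> constructor <;>
      linarith [norm_nonneg ((rootCount p N : ℂ) -
        ((genShare (p - 1) : ℝ) : ℂ) * ((N - N / p : ℕ) : ℂ))]
  · obtain ⟨n, hn⟩ : ∃ n, 2 * k = n + 1 := ⟨2 * k - 1, by omega⟩
    have hM0 : 0 ≤ charMoment p N k := by
      rw [charMoment, dif_neg hp.ne_zero]
      positivity
    have hone : ∀ T ∈ Q.powerset, e T ^ (2 * k) ≤ charMoment p N k := by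
      intro T hT'
      obtain ⟨hd, hdd⟩ := hT T hT'
      rw [he]
      simp only
      rw [mul_pow, hn]
      refine (mul_le_mul_of_nonneg_left (pow_sum_le_card_mul_sum_pow
        (fun χ _ => norm_nonneg _) n) (by positivity)).trans ?_
      have hcard : ((((killed (ZMod p) (∏ q ∈ T, q)).erase 1).card : ℕ) : ℝ) ≤
          ((∏ q ∈ T, q : ℕ) : ℝ) := by
        refine Nat.cast_le.2 ((card_le_card (erase_subset _ _)).trans ?_)
        rw [card_killed, ZMod.card, Nat.gcd_eq_left hdd]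
      have hd1 : (1 : ℝ) ≤ ((∏ q ∈ T, q : ℕ) : ℝ) := Nat.one_le_cast.2 hd
      have hsum : ∑ χ ∈ (killed (ZMod p) (∏ q ∈ T, q)).erase 1,
          ‖∑ a ∈ Ioc 0 N, χ (a : ZMod p)‖ ^ (n + 1) ≤ charMoment p N k := by
        rw [charMoment, dif_neg hp.ne_zero, hn]
        refine sum_le_sum_of_subset_of_nonneg (fun χ hχ => ?_) fun χ _ _ => by positivity
        rw [mem_primChars]
        exact ((Nat.dvd_prime hp).1 (DirichletCharacter.conductor_dvd_level χ)).resolve_left
          fun h => (mem_erase.1 hχ).1 (DirichletCharacter.eq_one_iff_conductor_eq_one.2 h)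
      refine (mul_le_mul_of_nonneg_left (mul_le_mul (pow_le_pow_left₀ (Nat.cast_nonneg _) hcard n)
        hsum (sum_nonneg fun χ _ => by positivity) (by positivity)) (by positivity)).trans ?_
      rw [← mul_assoc]
      refine mul_le_of_le_one_left hM0 ?_
      rw [inv_pow, inv_mul_le_iff₀ (by positivity), mul_one]
      exact pow_le_pow_right₀ hd1 (by omega)
    rw [hn]
    refine (pow_sum_le_card_mul_sum_pow he0 n).trans ?_
    rw [card_powerset, Nat.cast_pow, Nat.cast_ofNat, hQ, pow_succ _ n, mul_assoc, ← hn]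
    refine mul_le_mul_of_nonneg_left ((sum_le_card_nsmul _ _ _ (hQ ▸ hone)).trans (le_of_eq ?_))
      (by positivity)
    rw [nsmul_eq_mul, card_powerset, Nat.cast_pow, Nat.cast_ofNat]

theorem repCount_Icc_support (N : ℕ) : ∀ (k n : ℕ), repCount (Icc 1 N) k n ≠ 0 →
    n ≠ 0 ∧ n ≤ N ^ k
  | 0, n, h => by
    rw [repCount] at h
    split_ifs at h with h1
    · simp [h1]
    · exact absurd rfl h
  | k + 1, n, h => by
    rw [repCount] at h
    obtain ⟨l, hl, hne⟩ := exists_ne_zero_of_sum_ne_zero h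
    rw [mem_Icc] at hl
    split_ifs at hne with hd
    · obtain ⟨h0, hle⟩ := repCount_Icc_support N k _ hne
      obtain ⟨m, rfl⟩ := hd
      rw [Nat.mul_div_cancel_left _ hl.1] at h0 hle
      refine ⟨mul_ne_zero (by omega) h0, ?_⟩
      rw [pow_succ']
      exact Nat.mul_le_mul hl.2 hle
    · exact absurd rfl hne

theorem repCount_Icc_le (N : ℕ) : ∀ (k n : ℕ),
    repCount (Icc 1 N) k n ≤ n.divisors.card ^ k
  | 0, n => by
    rw [repCount]
    split_ifs <;> simp
  | k + 1, n => by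
    by_cases h : repCount (Icc 1 N) (k + 1) n = 0
    · rw [h]
      exact Nat.zero_le _
    have h0 := (repCount_Icc_support N (k + 1) n h).1
    rw [repCount, ← sum_filter]
    refine (sum_le_card_nsmul _ _ (n.divisors.card ^ k) fun l hl => ?_).trans ?_
    · refine (repCount_Icc_le N k _).trans (Nat.pow_le_pow_left ?_ k)
      exact card_le_card (Nat.divisors_subset_of_dvd h0 (Nat.div_dvd_of_dvd (mem_filter.1 hl).2))
    · rw [smul_eq_mul, pow_succ']
      refine Nat.mul_le_mul_right _ (card_le_card fun l hl => ?_)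
      exact Nat.mem_divisors.2 ⟨(mem_filter.1 hl).2, h0⟩

theorem sum_Icc_pow {R : Type*} [CommSemiring R] (N : ℕ) (f : ℕ → R) (h1 : f 1 = 1)
    (hm : ∀ a b, f (a * b) = f a * f b) :
    ∀ k : ℕ, (∑ l ∈ Icc 1 N, f l) ^ k =
      ∑ n ∈ Ioc 0 (N ^ k), (repCount (Icc 1 N) k n : R) * f n
  | 0 => by simp [repCount, h1, show Ioc 0 1 = ({1} : Finset ℕ) from rfl]
  | k + 1 => by
    rw [pow_succ', sum_Icc_pow N f h1 hm k, sum_mul]
    simp only [repCount, Nat.cast_sum, Nat.cast_ite, Nat.cast_zero, sum_mul]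
    conv_rhs => rw [sum_comm]
    refine sum_congr rfl fun l hl => ?_
    rw [mem_Icc] at hl
    rw [mul_sum]
    have hinj : Set.InjOn (fun m => l * m) (Ioc 0 (N ^ k) : Finset ℕ) :=
      fun a _ b _ h => Nat.eq_of_mul_eq_mul_left hl.1 h
    symm
    rw [← sum_subset (s₁ := (Ioc 0 (N ^ k)).image fun m => l * m) (fun n hn => ?_)
      fun n hn hn' => ?_, sum_image hinj]
    · refine sum_congr rfl fun m _ => ?_
      rw [if_pos (dvd_mul_right l m), Nat.mul_div_cancel_left _ hl.1, hm]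
      ring
    · obtain ⟨m, hmem, rfl⟩ := mem_image.1 hn
      rw [mem_Ioc] at hmem ⊢
      exact ⟨Nat.mul_pos hl.1 hmem.1, by rw [pow_succ']; exact Nat.mul_le_mul hl.2 hmem.2⟩
    · split_ifs with hd
      · by_cases hr : repCount (Icc 1 N) k (n / l) = 0
        · simp [hr]
        · obtain ⟨h0, hle⟩ := repCount_Icc_support N k _ hr
          exact absurd (mem_image.2 ⟨n / l, mem_Ioc.2 ⟨Nat.pos_of_ne_zero h0, hle⟩,
            Nat.mul_div_cancel' hd⟩) hn'
      · simp

/-- **The moments over all `p ≤ x`.** -/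
theorem sum_charMoment_le (N k x : ℕ) {D : ℝ}
    (hD : ∀ n ∈ Ioc 0 (N ^ k), (repCount (Icc 1 N) k n : ℝ) ≤ D) :
    ∑ p ∈ primesTo x, charMoment p N k ≤
      ((N : ℝ) ^ k + (x : ℝ) * x) * (D * (N : ℝ) ^ k) := by
  have hls := FA.BarbanDavenportHalberstam.largeSieve_chars_sharp x 0 (N ^ k)
    (fun n => (repCount (Icc 1 N) k n : ℂ))
  simp only [zero_add, Complex.norm_natCast] at hls
  have hrhs : ∑ n ∈ Ioc 0 (N ^ k), (repCount (Icc 1 N) k n : ℝ) ^ 2 ≤ D * (N : ℝ) ^ k := by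
    have h := sum_Icc_pow N (fun _ => (1 : ℕ)) rfl (fun _ _ => rfl) k
    simp only [sum_const, Nat.card_Icc, Nat.add_sub_cancel, smul_eq_mul, mul_one, Nat.cast_id] at h
    have e : ((∑ n ∈ Ioc 0 (N ^ k), repCount (Icc 1 N) k n : ℕ) : ℝ) = (N : ℝ) ^ k := by
      rw [← h, Nat.cast_pow]
    rw [← e, Nat.cast_sum, mul_sum]
    refine sum_le_sum fun n hn => ?_
    rw [pow_two]
    exact mul_le_mul_of_nonneg_right (hD n hn) (Nat.cast_nonneg _)
  rw [Nat.cast_pow] at hls
  refine le_trans ?_ (hls.trans (mul_le_mul_of_nonneg_left hrhs (by positivity)))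
  refine le_trans (sum_le_sum (g := fun q : ℕ => (q : ℝ) / q.totient * ∑ χ ∈ primChars q,
      ‖∑ n ∈ Ioc 0 (N ^ k), (repCount (Icc 1 N) k n : ℂ) * χ (n : ZMod q)‖ ^ 2) fun p hp => ?_)
    (sum_le_sum_of_subset_of_nonneg (fun p hp => (mem_filter.1 hp).1)
      fun p _ _ => by positivity)
  rw [mem_primesTo] at hp
  rw [charMoment, dif_neg hp.1.ne_zero]
  have hratio : (1 : ℝ) ≤ (p : ℝ) / p.totient :=
    (one_le_div (Nat.cast_pos.2 (Nat.totient_pos.2 hp.1.pos))).2
      (Nat.cast_le.2 (Nat.totient_le p))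
  refine le_trans (le_of_eq ?_) (le_mul_of_one_le_left (sum_nonneg fun _ _ => sq_nonneg _) hratio)
  refine sum_congr rfl fun χ _ => ?_
  rw [← sum_Icc_pow N (fun n => χ (n : ZMod p)) (by simp) (fun a b => by simp) k, norm_pow,
    ← pow_mul, mul_comm k 2, show Icc 1 N = Ioc 0 N from rfl]

theorem rootCount_switch (N x : ℕ) :
    ∑ a ∈ Ioc 0 N, #((primesTo x).filter fun p => orderOf (a : ZMod p) = p - 1) =
      ∑ p ∈ primesTo x, rootCount p N := by
  simp only [rootCount, card_filter]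
  exact sum_comm

end FA.ArtinAverage

end
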