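import Fermat.Agent.ArtinAverage.Average
import Mathlib.NumberTheory.Harmonic.Bounds

/-!
# Artin's conjecture on average (Stephens)

For `N ≥ x ^ ε` the sum over `a ≤ N` of the numbers of primes `p ≤ x` with the primitive root `a`
is `A N π x` up to `o (N π x)`: the error is `≪ N x ^ (1 - 1 / (4 k))`, `k` fixed.
-/

set_option autoImplicit false

noncomputable section

namespace FA.ArtinAverage

open Finset Filter
open FA.PrimesMinusOne (piOne)
open FA.AlmostAllRoot (repCount)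
open FA.ArtinHooley (artinConst artinConst_pos)
open scoped Topology Classical

theorem sum_inv_primesTo_le (x : ℕ) : ∑ p ∈ primesTo x, (1 : ℝ) / p ≤ 1 + Real.log x := by
  refine le_trans ?_ (harmonic_le_one_add_log x)
  rw [harmonic_eq_sum_Icc]
  push_cast
  simp only [one_div]
  exact sum_le_sum_of_subset_of_nonneg (filter_subset _ _) fun p _ _ => by positivity

theorem exists_two_pow_le {η : ℝ} (hη : 0 < η) : ∃ C : ℝ, 0 < C ∧ ∀ x p : ℕ, p.Prime → p ≤ x →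
    (2 : ℝ) ^ (p - 1).primeFactors.card ≤ C * (x : ℝ) ^ η := by
  obtain ⟨C, hC, h⟩ := BurgessGeneral.exists_four_pow_card_primeFactors_le hη
  refine ⟨C, hC, fun x p hp hpx => ?_⟩
  refine (pow_le_pow_left₀ zero_le_two (by norm_num : (2 : ℝ) ≤ 4) _).trans
    ((h (p - 1) (by have := hp.two_le; omega)).trans ?_)
  exact mul_le_mul_of_nonneg_left (Real.rpow_le_rpow (Nat.cast_nonneg _)
    (Nat.cast_le.2 (by omega)) hη.le) hC.le

/-- **The total error for one `k`.** -/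
theorem exists_error_le (k : ℕ) (hk : 1 ≤ k) {δ : ℝ} (hδ : 0 < δ) : ∃ C : ℝ, 0 ≤ C ∧
    ∀ x N : ℕ, 1 ≤ x → 1 ≤ N → (x : ℝ) * x ≤ (N : ℝ) ^ k →
    ∀ {D : ℝ}, (∀ n ∈ Ioc 0 (N ^ k), (repCount (Icc 1 N) k n : ℝ) ≤ D) →
    D ≤ (x : ℝ) ^ (δ * (2 * k : ℕ)) →
      |(∑ p ∈ primesTo x, (rootCount p N : ℝ)) - (∑ p ∈ primesTo x, genShare (p - 1)) * N| ≤
        N * (1 + Real.log x) + C * N * (x : ℝ) ^ (1 + 2 * δ - 1 / (2 * k : ℕ)) := by
  obtain ⟨B, hB, hpow⟩ := exists_two_pow_le hδ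
  refine ⟨2 * B, by positivity, fun x N hx hN hxN D hD hDx => ?_⟩
  have hx0 : (0 : ℝ) < x := Nat.cast_pos.2 hx
  have hex : ∀ p ∈ primesTo x, ∃ E : ℝ,
      |(rootCount p N : ℝ) - genShare (p - 1) * N| ≤ (N : ℝ) / p + E ∧ 0 ≤ E ∧
        E ^ (2 * k) ≤ (B * (x : ℝ) ^ δ) ^ (2 * k) * charMoment p N k := by
    intro p hp
    rw [mem_primesTo] at hp
    have := Fact.mk hp.1
    obtain ⟨E, h1, h2, h3⟩ := abs_rootCount_sub_le (p := p) N hk
    refine ⟨E, h1, h2, h3.trans (mul_le_mul_of_nonneg_right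
      (pow_le_pow_left₀ (by positivity) (hpow x p hp.1 hp.2) _) ?_)⟩
    rw [charMoment, dif_neg hp.1.ne_zero]
    positivity
  choose! E hE1 hE0 hEp using hex
  obtain ⟨S, hS⟩ : ∃ S, S = ∑ p ∈ primesTo x, E p := ⟨_, rfl⟩
  have hS0 : 0 ≤ S := hS ▸ sum_nonneg hE0
  have htot : |(∑ p ∈ primesTo x, (rootCount p N : ℝ)) -
      (∑ p ∈ primesTo x, genShare (p - 1)) * N| ≤ N * (1 + Real.log x) + S := by
    rw [sum_mul, ← sum_sub_distrib]
    refine (abs_sum_le_sum_abs _ _).trans ((sum_le_sum hE1).trans ?_)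
    rw [sum_add_distrib, ← hS]
    refine add_le_add ?_ le_rfl
    simp only [div_eq_mul_one_div (N : ℝ), ← mul_sum]
    exact mul_le_mul_of_nonneg_left (sum_inv_primesTo_le x) (Nat.cast_nonneg _)
  refine htot.trans (add_le_add le_rfl ?_)
  refine le_of_pow_le_pow_left₀ (show 2 * k ≠ 0 by omega) (by positivity) ?_
  obtain ⟨n, hn⟩ : ∃ n, 2 * k = n + 1 := ⟨2 * k - 1, by omega⟩
  have hD0 : 0 ≤ D := le_trans (Nat.cast_nonneg _)
    (hD 1 (mem_Ioc.2 ⟨one_pos, Nat.one_le_pow _ _ hN⟩))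
  have h1 : S ^ (2 * k) ≤ (x : ℝ) ^ n * ((B * (x : ℝ) ^ δ) ^ (2 * k) *
      (((N : ℝ) ^ k + (x : ℝ) * x) * (D * (N : ℝ) ^ k))) := by
    rw [hS, hn]
    refine (pow_sum_le_card_mul_sum_pow hE0 n).trans ?_
    refine mul_le_mul (pow_le_pow_left₀ (Nat.cast_nonneg _) (Nat.cast_le.2 ?_) n) ?_
      (sum_nonneg fun p hp => pow_nonneg (hE0 p hp) _) (by positivity)
    · exact (card_filter_le _ _).trans (by simp)
    · rw [← hn]
      refine (sum_le_sum hEp).trans ?_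
      rw [← mul_sum]
      exact mul_le_mul_of_nonneg_left (sum_charMoment_le N k x hD) (by positivity)
  refine h1.trans ?_
  have h2 : ((N : ℝ) ^ k + (x : ℝ) * x) * (D * (N : ℝ) ^ k) ≤
      2 * (x : ℝ) ^ (δ * (2 * k : ℕ)) * (N : ℝ) ^ (2 * k) := by
    calc ((N : ℝ) ^ k + (x : ℝ) * x) * (D * (N : ℝ) ^ k)
        ≤ (2 * (N : ℝ) ^ k) * ((x : ℝ) ^ (δ * (2 * k : ℕ)) * (N : ℝ) ^ k) := by
          gcongr
          linarith
      _ = _ := by rw [two_mul k, pow_add]; ring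
  refine (mul_le_mul_of_nonneg_left (mul_le_mul_of_nonneg_left h2 (by positivity))
    (by positivity)).trans ?_
  rw [mul_pow (2 * B * (N : ℝ)), mul_pow (2 * B) (N : ℝ), mul_pow B, mul_pow 2 B,
    ← Real.rpow_mul_natCast hx0.le (1 + 2 * δ - 1 / (2 * k : ℕ)), ← Real.rpow_mul_natCast hx0.le δ,
    ← Real.rpow_natCast (x : ℝ) n]
  have e : (x : ℝ) ^ ((1 + 2 * δ - 1 / (2 * k : ℕ)) * (2 * k : ℕ)) =
      (x : ℝ) ^ (n : ℝ) * ((x : ℝ) ^ (δ * (2 * k : ℕ)) * (x : ℝ) ^ (δ * (2 * k : ℕ))) := by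
    rw [← Real.rpow_add hx0, ← Real.rpow_add hx0]
    congr 1
    have h : ((2 * k : ℕ) : ℝ) = (n : ℝ) + 1 := by rw [hn]; push_cast; ring
    have h0 : ((n : ℝ) + 1) ≠ 0 := by positivity
    rw [h]
    field_simp
    ring
  rw [e]
  have h2k : (2 : ℝ) ≤ 2 ^ (2 * k) := le_self_pow₀ one_le_two (by omega)
  calc (x : ℝ) ^ (n : ℝ) * (B ^ (2 * k) * (x : ℝ) ^ (δ * (2 * k : ℕ)) *
        (2 * (x : ℝ) ^ (δ * (2 * k : ℕ)) * (N : ℝ) ^ (2 * k)))
      = 2 * (B ^ (2 * k) * (N : ℝ) ^ (2 * k) * ((x : ℝ) ^ (n : ℝ) *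
        ((x : ℝ) ^ (δ * (2 * k : ℕ)) * (x : ℝ) ^ (δ * (2 * k : ℕ))))) := by ring
    _ ≤ 2 ^ (2 * k) * (B ^ (2 * k) * (N : ℝ) ^ (2 * k) * ((x : ℝ) ^ (n : ℝ) *
        ((x : ℝ) ^ (δ * (2 * k : ℕ)) * (x : ℝ) ^ (δ * (2 * k : ℕ))))) :=
        mul_le_mul_of_nonneg_right h2k (by positivity)
    _ = _ := by ring

/-- Both ranges of `N`. -/
theorem exists_uniform_error {ε : ℝ} (hε : 0 < ε) : ∃ κ C : ℝ, 0 < κ ∧ 0 ≤ C ∧
    ∀ᶠ x : ℕ in atTop, ∀ N : ℕ, (x : ℝ) ^ ε ≤ N →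
      |(∑ p ∈ primesTo x, (rootCount p N : ℝ)) - (∑ p ∈ primesTo x, genShare (p - 1)) * N| ≤
        N * (1 + Real.log x) + C * N * (x : ℝ) ^ (1 - κ) := by
  obtain ⟨K, hK⟩ : ∃ K : ℕ, K = ⌈2 / ε⌉₊ + 1 := ⟨_, rfl⟩
  have hK1 : 1 ≤ K := by omega
  have hKr : (1 : ℝ) ≤ K := Nat.one_le_cast.2 hK1
  obtain ⟨δ, hδ⟩ : ∃ δ : ℝ, δ = 1 / (8 * K) := ⟨_, rfl⟩
  have hδ0 : 0 < δ := hδ ▸ by positivity
  obtain ⟨η, hη⟩ : ∃ η : ℝ, η = δ / (2 * K) := ⟨_, rfl⟩
  obtain ⟨A, hA, hdiv⟩ := RepresentationBound.card_divisors_isBigO η (hη ▸ by positivity)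
  obtain ⟨C₁, hC₁, h₁⟩ := exists_error_le 1 le_rfl hδ0
  obtain ⟨C₂, hC₂, h₂⟩ := exists_error_le K hK1 hδ0
  refine ⟨1 / (4 * K), max C₁ C₂, by positivity, le_max_of_le_left hC₁, ?_⟩
  have hbig : ∀ᶠ x : ℕ in atTop, A ^ K ≤ (x : ℝ) ^ (δ * K) :=
    ((tendsto_rpow_atTop (by positivity)).comp tendsto_natCast_atTop_atTop).eventually_ge_atTop _
  filter_upwards [hbig, eventually_ge_atTop 2] with x hx hx2 N hN
  have hx1 : (1 : ℝ) ≤ x := Nat.one_le_cast.2 (by omega)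
  have hN1 : 1 ≤ N := by
    have h := (Real.one_le_rpow hx1 hε.le).trans hN
    exact_mod_cast h
  by_cases hcase : (x : ℝ) * x ≤ N
  · refine (h₁ x N (by omega) hN1 (by simpa using hcase) (D := 1) (fun n hn => ?_)
      (Real.one_le_rpow hx1 (by positivity))).trans (add_le_add le_rfl ?_)
    · rw [pow_one, mem_Ioc] at hn
      rw [repCount, sum_eq_single n]
      · simp [repCount, Nat.div_self hn.1]
      · intro l hl hne
        rw [repCount]
        split_ifs with hd h1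
        · exact absurd (by rw [← Nat.mul_div_cancel' hd, h1, mul_one]) hne.symm
        all_goals rfl
      · exact fun h => absurd (mem_Icc.2 ⟨hn.1, hn.2⟩) h
    · refine mul_le_mul (mul_le_mul_of_nonneg_right (le_max_left _ _) (Nat.cast_nonneg _))
        (Real.rpow_le_rpow_of_exponent_le hx1 ?_) (by positivity) (by positivity)
      rw [hδ]
      push_cast
      have h4 : 1 / (4 * (K : ℝ)) ≤ 1 / 4 :=
        one_div_le_one_div_of_le (by norm_num) (by linarith)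
      have e : 2 * (1 / (8 * (K : ℝ))) = 1 / (4 * K) := by field_simp; ring
      linarith
  · rw [not_le] at hcase
    have hxK : (x : ℝ) * x ≤ (N : ℝ) ^ K := by
      refine le_trans ?_ (pow_le_pow_left₀ (by positivity) hN K)
      rw [← Real.rpow_mul_natCast (by linarith), ← pow_two, ← Real.rpow_natCast (x : ℝ) 2]
      refine Real.rpow_le_rpow_of_exponent_le hx1 ?_
      have h : 2 / ε ≤ (K : ℝ) := (Nat.le_ceil _).trans (Nat.cast_le.2 (by omega))
      rw [div_le_iff₀ hε] at h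
      push_cast
      linarith
    refine (h₂ x N (by omega) hN1 hxK (D := (x : ℝ) ^ (δ * (2 * K : ℕ))) (fun n hn => ?_)
      le_rfl).trans (add_le_add le_rfl ?_)
    · rw [mem_Ioc] at hn
      refine (Nat.cast_le.2 (repCount_Icc_le N K n)).trans ?_
      rw [Nat.cast_pow]
      refine (pow_le_pow_left₀ (Nat.cast_nonneg _) (hdiv n hn.1.ne') K).trans ?_
      rw [mul_pow]
      calc A ^ K * ((n : ℝ) ^ η) ^ K ≤ (x : ℝ) ^ (δ * K) * (x : ℝ) ^ (δ * K) := by
            refine mul_le_mul hx ?_ (by positivity) (by positivity)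
            rw [← Real.rpow_mul_natCast (Nat.cast_nonneg _)]
            have hn' : (n : ℝ) ≤ (x : ℝ) ^ ((2 * K : ℕ) : ℝ) := by
              rw [Real.rpow_natCast, pow_mul]
              refine le_trans (Nat.cast_le.2 hn.2) ?_
              rw [Nat.cast_pow, pow_two]
              exact pow_le_pow_left₀ (Nat.cast_nonneg N) hcase.le K
            refine (Real.rpow_le_rpow (Nat.cast_nonneg n) hn' (by rw [hη]; positivity)).trans
              (le_of_eq ?_)
            rw [← Real.rpow_mul (by linarith)]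
            congr 1
            rw [hη]
            push_cast
            field_simp
        _ = _ := by
            rw [← Real.rpow_add (by linarith)]
            push_cast
            ring_nf
    · refine mul_le_mul (mul_le_mul_of_nonneg_right (le_max_right _ _) (Nat.cast_nonneg _))
        (Real.rpow_le_rpow_of_exponent_le hx1 ?_) (by positivity) (by positivity)
      rw [hδ]
      push_cast
      have e : 1 + 2 * (1 / (8 * (K : ℝ))) - 1 / (2 * K) = 1 - 1 / (4 * K) := by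
        field_simp
        ring
      linarith

/-- **Artin's conjecture on average.** -/
theorem eventually_average {ε η : ℝ} (hε : 0 < ε) (hη : 0 < η) :
    ∀ᶠ x : ℕ in atTop, ∀ N : ℕ, (x : ℝ) ^ ε ≤ N →
      |((∑ a ∈ Ioc 0 N, #((primesTo x).filter fun p => orderOf (a : ZMod p) = p - 1) : ℕ) : ℝ) -
          artinConst * N * Nat.primeCounting x| ≤ η * N * Nat.primeCounting x := by
  obtain ⟨κ, C, hκ, hC, herr⟩ := exists_uniform_error hε
  have hA := artinConst_pos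
  obtain ⟨τ, hτ⟩ : ∃ τ, τ = min (1 / 2) (η / (4 * (1 + artinConst))) := ⟨_, rfl⟩
  have hτ0 : 0 < τ := hτ ▸ lt_min (by norm_num) (by positivity)
  have hτ1 : τ ≤ 1 / 2 := hτ ▸ min_le_left _ _
  have hτ2 : τ * (4 * (1 + artinConst)) ≤ η :=
    (le_div_iff₀ (by positivity)).1 (hτ ▸ min_le_right _ _)
  have hpi : Tendsto (fun x : ℕ => (Nat.primeCounting x : ℝ) * Real.log x / x) atTop (𝓝 1) := by
    have hcard : ∀ x, Nat.primeCounting x = piOne x 1 := fun x => by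
      rw [piOne_eq_card, Nat.primeCounting, Nat.primeCounting', Nat.count_eq_card_filter_range]
      exact congrArg Finset.card (by ext p; simp [mem_primesTo]; tauto)
    simpa [hcard] using tendsto_piOne one_pos
  have hsmall : ∀ᶠ x : ℕ in atTop, ((1 + Real.log x) + C * (x : ℝ) ^ (1 - κ)) * Real.log x / x ≤
      η / 4 := by
    have hl : ∀ {r : ℝ}, 0 < r → ∀ m : ℕ,
        Tendsto (fun x : ℕ => Real.log (x : ℝ) ^ m / (x : ℝ) ^ r) atTop (𝓝 0) := fun hr m => by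
      have h := (isLittleO_log_rpow_rpow_atTop (m : ℝ) hr).tendsto_div_nhds_zero.comp
        tendsto_natCast_atTop_atTop
      simpa [Function.comp_def, Real.rpow_natCast] using h
    have h := ((hl one_pos 1).add (hl one_pos 2)).add ((hl hκ 1).const_mul C)
    simp only [add_zero, mul_zero] at h
    filter_upwards [h.eventually (eventually_le_nhds (show (0 : ℝ) < η / 4 by linarith)),
      eventually_ge_atTop 1] with x hx hx1
    refine le_trans (le_of_eq ?_) hx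
    have hx0 : (0 : ℝ) < x := Nat.cast_pos.2 hx1
    rw [Real.rpow_one, Real.rpow_sub hx0, Real.rpow_one]
    field_simp
  filter_upwards [herr, hsmall, Metric.tendsto_nhds.1 tendsto_genShare τ hτ0,
    Metric.tendsto_nhds.1 hpi τ hτ0, eventually_ge_atTop 2] with x hx hs hg hp hx2 N hN
  rw [rootCount_switch, Nat.cast_sum]
  rw [Real.dist_eq, abs_lt] at hg hp
  have hb := abs_le.1 (hx N hN)
  have hx0 : (0 : ℝ) < x := Nat.cast_pos.2 (by omega)
  have hL : 0 < Real.log x := Real.log_pos (Nat.one_lt_cast.2 (by omega))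
  obtain ⟨v, hv⟩ : ∃ v : ℝ, v = (x : ℝ) / Real.log x := ⟨_, rfl⟩
  have hv0 : 0 < v := hv ▸ div_pos hx0 hL
  obtain ⟨P, hP⟩ : ∃ P : ℝ, P = Nat.primeCounting x := ⟨_, rfl⟩
  obtain ⟨G, hG⟩ : ∃ G, G = ∑ p ∈ primesTo x, genShare (p - 1) := ⟨_, rfl⟩
  rw [← hP] at hp ⊢
  rw [← hG] at hg hb
  have e : ∀ y : ℝ, y * Real.log x / x = y / v := fun y => by rw [hv, div_div_eq_mul_div]
  rw [e] at hg hp hs
  rw [sub_lt_iff_lt_add, div_lt_iff₀ hv0, lt_sub_iff_add_lt, lt_div_iff₀ hv0] at hg hp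
  rw [div_le_iff₀ hv0] at hs
  have hN0 : (0 : ℝ) ≤ N := Nat.cast_nonneg N
  have hη4 := mul_le_mul_of_nonneg_left hs hN0
  have ha1 := mul_le_mul_of_nonneg_left hg.2.le hN0
  have ha2 := mul_le_mul_of_nonneg_left hg.1.le hN0
  have hb1 := mul_le_mul_of_nonneg_left hp.2.le (mul_nonneg hA.le hN0)
  have hb2 := mul_le_mul_of_nonneg_left hp.1.le (mul_nonneg hA.le hN0)
  have hhalf : v / 2 ≤ P := by nlinarith
  have hc := mul_le_mul_of_nonneg_left hhalf (mul_nonneg hη.le hN0)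
  have hd := mul_le_mul_of_nonneg_right hτ2 (mul_nonneg hN0 hv0.le)
  rw [abs_le]
  constructor <;> linarith

end FA.ArtinAverage

end
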