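import Fermat.Agent.PrimesMinusOne.Moduli
import Fermat.Agent.PrimeNumberTheorem.Progression
import Fermat.Agent.ArtinHooley.Constant

/-!
# The mean of `φ (p - 1) / (p - 1)` is Artin's constant

The primes of a class give the product cut at `z`; Brun and Titchmarsh the tail, `O (1 / z)`.
-/

set_option autoImplicit false

noncomputable section

namespace FA.ArtinAverage

open Finset Filter
open FA.PrimesMinusOne (piOne piOne_le piOne_brunTitchmarsh)
open FA.ArtinHooley (artinConst artinFactor tendsto_artinPartial totient_prod)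
open scoped Topology Classical

/-- The share `φ n / n` of the generators of a cyclic group of order `n`. -/
def genShare (n : ℕ) : ℝ := ∏ q ∈ n.primeFactors, (1 - 1 / (q : ℝ))

theorem genShare_eq {n : ℕ} (hn : 0 < n) : genShare n = (n.totient : ℝ) / n := by
  have h := congrArg (fun r : ℚ => (r : ℝ)) (Nat.totient_eq_mul_prod_factors n)
  push_cast at h
  rw [h, genShare, mul_div_cancel_left₀ _ (Nat.cast_ne_zero.2 hn.ne')]
  simp only [one_div]

/-- `genShare` cut at `z`. -/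
def cutShare (z n : ℕ) : ℝ :=
  ∏ q ∈ (Icc 1 z).filter Nat.Prime, (1 + if q ∣ n then -(1 / (q : ℝ)) else 0)

theorem factor_bounds {q : ℕ} (hq : q.Prime) : 0 ≤ 1 - 1 / (q : ℝ) ∧ 1 - 1 / (q : ℝ) ≤ 1 := by
  have h2 : (2 : ℝ) ≤ q := Nat.ofNat_le_cast.2 hq.two_le
  exact ⟨sub_nonneg.2 ((div_le_one (by linarith)).2 (by linarith)), sub_le_self 1 (by positivity)⟩

theorem prod_sub_le {S : Finset ℕ} (hS : ∀ q ∈ S, q.Prime) :
    1 - ∑ q ∈ S, 1 / (q : ℝ) ≤ ∏ q ∈ S, (1 - 1 / (q : ℝ)) ∧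
      ∏ q ∈ S, (1 - 1 / (q : ℝ)) ≤ 1 := by
  induction S using Finset.induction with
  | empty => simp
  | insert a S ha ih =>
    obtain ⟨h1, h2⟩ := ih fun q hq => hS q (mem_insert_of_mem hq)
    obtain ⟨b1, b2⟩ := factor_bounds (hS a (mem_insert_self _ _))
    have h0 : 0 ≤ ∏ q ∈ S, (1 - 1 / (q : ℝ)) :=
      prod_nonneg fun q hq => (factor_bounds (hS q (mem_insert_of_mem hq))).1
    rw [prod_insert ha, sum_insert ha]
    constructor <;> nlinarith [show 0 ≤ 1 / (a : ℝ) by positivity]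

theorem abs_genShare_sub_cutShare {z n : ℕ} (hn : 0 < n) :
    |genShare n - cutShare z n| ≤ ∑ q ∈ n.primeFactors.filter (fun q => z < q), 1 / (q : ℝ) := by
  have e : cutShare z n = ∏ q ∈ n.primeFactors.filter (fun q => ¬ z < q), (1 - 1 / (q : ℝ)) := by
    rw [cutShare, ← prod_subset (s₁ := n.primeFactors.filter fun q => ¬ z < q) (fun q hq => ?_)
      fun q hq hq' => ?_]
    · refine prod_congr rfl fun q hq => ?_
      rw [if_pos (Nat.dvd_of_mem_primeFactors (mem_filter.1 hq).1)]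
      ring
    · rw [mem_filter] at hq ⊢
      exact ⟨mem_Icc.2 ⟨(Nat.prime_of_mem_primeFactors hq.1).one_le, not_lt.1 hq.2⟩,
        Nat.prime_of_mem_primeFactors hq.1⟩
    · rw [mem_filter, mem_Icc] at hq
      rw [if_neg fun hd => hq' (mem_filter.2
        ⟨Nat.mem_primeFactors.2 ⟨hq.2, hd, hn.ne'⟩, not_lt.2 hq.1.2⟩), add_zero]
  obtain ⟨T, hT⟩ : ∃ T, T = n.primeFactors.filter fun q => z < q := ⟨_, rfl⟩
  obtain ⟨U, hU⟩ : ∃ U, U = n.primeFactors.filter fun q => ¬ z < q := ⟨_, rfl⟩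
  have hsplit : genShare n = (∏ q ∈ T, (1 - 1 / (q : ℝ))) * ∏ q ∈ U, (1 - 1 / (q : ℝ)) := by
    rw [hT, hU, genShare]
    exact (prod_filter_mul_prod_filter_not _ _ _).symm
  obtain ⟨t1, t2⟩ := prod_sub_le (S := T) fun q hq =>
    Nat.prime_of_mem_primeFactors (mem_filter.1 (hT ▸ hq)).1
  obtain ⟨-, u2⟩ := prod_sub_le (S := U) fun q hq =>
    Nat.prime_of_mem_primeFactors (mem_filter.1 (hU ▸ hq)).1
  have u0 : 0 ≤ ∏ q ∈ U, (1 - 1 / (q : ℝ)) := prod_nonneg fun q hq =>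
    (factor_bounds (Nat.prime_of_mem_primeFactors (mem_filter.1 (hU ▸ hq)).1)).1
  rw [hsplit, e, ← hT, ← hU, abs_le]
  constructor <;> nlinarith [show 0 ≤ ∑ q ∈ T, 1 / (q : ℝ) from sum_nonneg fun _ _ => by positivity]

/-- The primes `p ≤ x`. -/
def primesTo (x : ℕ) : Finset ℕ := (Icc 1 x).filter Nat.Prime

theorem mem_primesTo {x p : ℕ} : p ∈ primesTo x ↔ p.Prime ∧ p ≤ x := by
  rw [primesTo, mem_filter, mem_Icc]
  exact ⟨fun h => ⟨h.2, h.1.2⟩, fun h => ⟨⟨h.1.one_le, h.2⟩, h.1⟩⟩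

theorem piOne_eq_card (x d : ℕ) :
    piOne x d = ((primesTo x).filter fun p => d ∣ p - 1).card := by
  rw [piOne, primesTo, filter_filter]
  refine congrArg Finset.card (filter_congr fun p _ => and_congr_right fun hp => ?_)
  exact ⟨fun h => (Nat.modEq_iff_dvd' hp.one_le).1 h.symm,
    fun h => ((Nat.modEq_iff_dvd' hp.one_le).2 h).symm⟩

theorem tendsto_piOne {d : ℕ} (hd : 0 < d) :
    Tendsto (fun x : ℕ => (piOne x d : ℝ) * Real.log x / x) atTop (𝓝 (d.totient : ℝ)⁻¹) := by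
  have : NeZero d := ⟨hd.ne'⟩
  refine ((PNT.tendsto_piClass (1 : ZMod d) isUnit_one).comp tendsto_natCast_atTop_atTop).congr
    fun x => ?_
  simp only [Function.comp_apply, PNT.piClass, piOne, Nat.floor_natCast]
  refine congrArg (fun k : ℕ => (k : ℝ) * Real.log x / x) (congrArg Finset.card
    (filter_congr fun p _ => and_congr_right fun _ => ?_))
  rw [← ZMod.natCast_eq_natCast_iff, Nat.cast_one]

theorem sum_cutShare (z x : ℕ) : ∑ p ∈ primesTo x, cutShare z (p - 1) =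
    ∑ U ∈ ((Icc 1 z).filter Nat.Prime).powerset,
      (∏ q ∈ U, -(1 / (q : ℝ))) * piOne x (∏ q ∈ U, q) := by
  simp only [cutShare, prod_one_add]
  rw [sum_comm]
  refine sum_congr rfl fun U hU => ?_
  rw [mem_powerset] at hU
  simp only [prod_ite_zero]
  rw [piOne_eq_card, ← sum_filter, sum_const, nsmul_eq_mul, mul_comm]
  congr 3
  refine filter_congr fun p _ => ⟨fun h => ?_, fun h q hq => ?_⟩
  · exact prod_primes_dvd _ (fun q hq => (mem_filter.1 (hU hq)).2.prime) h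
  · exact (dvd_prod_of_mem (fun i => i) hq).trans h

theorem tendsto_cut (z : ℕ) :
    Tendsto (fun x : ℕ => (∑ p ∈ primesTo x, cutShare z (p - 1)) * Real.log x / x) atTop
      (𝓝 (∏ q ∈ (Icc 1 z).filter Nat.Prime, artinFactor q)) := by
  have e : ∏ q ∈ (Icc 1 z).filter Nat.Prime, artinFactor q =
      ∑ U ∈ ((Icc 1 z).filter Nat.Prime).powerset,
        (∏ q ∈ U, -(1 / (q : ℝ))) * ((∏ q ∈ U, q).totient : ℝ)⁻¹ := by
    rw [prod_congr rfl fun q hq => show artinFactor q = 1 + -(1 / ((q : ℝ) * (q - 1))) by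
      rw [artinFactor, if_pos (mem_filter.1 hq).2]; ring, prod_one_add]
    refine sum_congr rfl fun U hU => ?_
    have hp : ∀ q ∈ U, q.Prime := fun q hq => (mem_filter.1 (mem_powerset.1 hU hq)).2
    have h := totient_prod hp
    rw [Nat.cast_mul, Nat.cast_prod] at h
    have h0 : (∏ q ∈ U, (q : ℝ)) ≠ 0 :=
      prod_ne_zero_iff.2 fun q hq => Nat.cast_ne_zero.2 (hp q hq).ne_zero
    have h' : ((∏ q ∈ U, q).totient : ℝ) = (∏ q ∈ U, (q : ℝ) * (q - 1)) / ∏ q ∈ U, (q : ℝ) := by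
      rw [← h, mul_div_cancel_left₀ _ h0]
    rw [h', inv_div, ← prod_div_distrib, ← prod_mul_distrib]
    refine prod_congr rfl fun q hq => ?_
    have hq0 : (q : ℝ) ≠ 0 := Nat.cast_ne_zero.2 (hp q hq).ne_zero
    field_simp
  rw [e]
  refine (tendsto_finsetSum _ fun U hU => (tendsto_piOne (prod_pos fun q hq =>
    (mem_filter.1 (mem_powerset.1 hU hq)).2.pos)).const_mul _).congr fun x => ?_
  rw [sum_cutShare, sum_mul, sum_div]
  exact sum_congr rfl fun U _ => by ring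

theorem sum_Ioc_inv_mul_pred {m : ℕ} (hm : 1 ≤ m) {M : ℕ} (hM : m ≤ M) :
    ∑ n ∈ Ioc m M, 1 / ((n : ℝ) * (n - 1)) = 1 / (m : ℝ) - 1 / (M : ℝ) := by
  induction M, hM using Nat.le_induction with
  | base => simp
  | succ M hM ih =>
    have h0 : (M : ℝ) ≠ 0 := Nat.cast_ne_zero.2 (by omega)
    have h1 : ((M : ℝ) + 1) ≠ 0 := by positivity
    rw [sum_Ioc_succ_top hM, ih]
    push_cast
    rw [add_sub_cancel_right]
    field_simp
    ring

theorem sum_inv_mul_pred_le {m M : ℕ} (hm : 1 ≤ m) {S : Finset ℕ} (hS : S ⊆ Ioc m M) :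
    ∑ n ∈ S, 1 / ((n : ℝ) * (n - 1)) ≤ 1 / (m : ℝ) := by
  have hpos : ∀ n : ℕ, 0 ≤ 1 / ((n : ℝ) * (n - 1)) := fun n => by
    rcases Nat.eq_zero_or_pos n with rfl | hn
    · simp
    · exact div_nonneg zero_le_one
        (mul_nonneg (Nat.cast_nonneg n) (sub_nonneg.2 (Nat.one_le_cast.2 hn)))
  refine (sum_le_sum_of_subset_of_nonneg hS fun n _ _ => hpos n).trans ?_
  by_cases hM : m ≤ M
  · rw [sum_Ioc_inv_mul_pred hm hM]
    linarith [show 0 ≤ 1 / (M : ℝ) by positivity]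
  · rw [Ioc_eq_empty (by omega), sum_empty]
    positivity

/-- **The tail.** -/
theorem abs_sum_genShare_sub_le {z x : ℕ} (hz : 1 ≤ z) (hx : 4 ≤ x) :
    |∑ p ∈ primesTo x, genShare (p - 1) - ∑ p ∈ primesTo x, cutShare z (p - 1)| ≤
      48 * x / Real.log x * (1 / z) + x * (1 / (Nat.sqrt x : ℕ)) := by
  obtain ⟨L, hL⟩ : ∃ L, L = Real.log x := ⟨_, rfl⟩
  have hx4 : (4 : ℝ) ≤ x := Nat.ofNat_le_cast.2 hx
  have hL0 : 0 < L := hL ▸ Real.log_pos (by linarith)
  rw [← sum_sub_distrib, ← hL]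
  obtain ⟨S, hS⟩ : ∃ S, S = (Ioc z x).filter Nat.Prime := ⟨_, rfl⟩
  refine (abs_sum_le_sum_abs _ _).trans ((sum_le_sum
    (g := fun p => ∑ q ∈ S, if q ∣ p - 1 then 1 / (q : ℝ) else 0) fun p hp => ?_).trans ?_)
  · rw [mem_primesTo] at hp
    have hp1 : 0 < p - 1 := by have := hp.1.two_le; omega
    refine (abs_genShare_sub_cutShare hp1).trans ?_
    rw [← sum_filter]
    refine sum_le_sum_of_subset_of_nonneg (fun q hq => ?_) fun q _ _ => by positivity
    rw [mem_filter] at hq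
    have hd := Nat.dvd_of_mem_primeFactors hq.1
    rw [hS, mem_filter, mem_filter, mem_Ioc]
    exact ⟨⟨⟨hq.2, (Nat.le_of_dvd hp1 hd).trans (by omega)⟩,
      Nat.prime_of_mem_primeFactors hq.1⟩, hd⟩
  rw [sum_comm]
  have e : ∀ q ∈ S, (∑ p ∈ primesTo x, if q ∣ p - 1 then 1 / (q : ℝ) else 0) =
      (piOne x q : ℝ) / q := fun q _ => by
    rw [← sum_filter, sum_const, nsmul_eq_mul, piOne_eq_card]
    ring
  rw [sum_congr rfl e, ← sum_filter_add_sum_filter_not S (fun q => q ≤ Nat.sqrt x)]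
  refine add_le_add ?_ ?_
  · refine (sum_le_sum (g := fun q : ℕ => 48 * x / L * (1 / ((q : ℝ) * (q - 1))))
      fun q hq => ?_).trans ?_
    · rw [hS, mem_filter, mem_filter, mem_Ioc] at hq
      have hqx : q < x := lt_of_le_of_lt hq.2 (Nat.sqrt_lt_self (by omega))
      have hq2 : (2 : ℝ) ≤ q := Nat.ofNat_le_cast.2 hq.1.2.two_le
      have hb := piOne_brunTitchmarsh hq.1.2.pos hqx
      rw [Nat.totient_prime hq.1.2, Nat.cast_sub hq.1.2.one_le, Nat.cast_one] at hb
      have hlog : L / 2 ≤ Real.log ((x : ℝ) / q) := by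
        have h1 : ((q * q : ℕ) : ℝ) ≤ x := Nat.cast_le.2 (Nat.le_sqrt.1 hq.2)
        push_cast at h1
        have h2 := Real.log_le_log (by positivity) h1
        rw [Real.log_mul (by linarith) (by linarith), ← hL] at h2
        rw [Real.log_div (by linarith) (by linarith), ← hL]
        linarith
      rw [div_le_iff₀ (by linarith)]
      refine hb.trans ((div_le_div_of_nonneg_left (by positivity) (mul_pos (by linarith)
        (half_pos hL0)) (mul_le_mul_of_nonneg_left hlog (by linarith))).trans (le_of_eq ?_))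
      have : (q : ℝ) - 1 ≠ 0 := by linarith
      field_simp
      ring
    · rw [← mul_sum]
      refine mul_le_mul_of_nonneg_left (sum_inv_mul_pred_le (M := x) hz fun q hq => ?_)
        (by positivity)
      rw [hS, mem_filter, mem_filter] at hq
      exact hq.1.1
  · refine (sum_le_sum (g := fun q : ℕ => (x : ℝ) * (1 / ((q : ℝ) * (q - 1)))) fun q hq => ?_).trans
      ?_
    · rw [hS, mem_filter, mem_filter, mem_Ioc] at hq
      have hq2 : (2 : ℝ) ≤ q := Nat.ofNat_le_cast.2 hq.1.2.two_le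
      refine (div_le_div_of_nonneg_right (piOne_le x q) (by linarith)).trans ?_
      rw [div_div, mul_one_div]
      exact div_le_div_of_nonneg_left (by linarith) (by nlinarith) (by nlinarith)
    · rw [← mul_sum]
      refine mul_le_mul_of_nonneg_left (sum_inv_mul_pred_le (M := x) (Nat.sqrt_pos.2 (by omega))
        fun q hq => ?_) (Nat.cast_nonneg x)
      rw [hS, mem_filter, mem_filter, mem_Ioc] at hq
      exact mem_Ioc.2 ⟨not_le.1 hq.2, hq.1.1.2⟩

/-- **The mean of `φ (p - 1) / (p - 1)`.** -/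
theorem tendsto_genShare :
    Tendsto (fun x : ℕ => (∑ p ∈ primesTo x, genShare (p - 1)) * Real.log x / x) atTop
      (𝓝 artinConst) := by
  refine Metric.tendsto_nhds.2 fun ε hε => ?_
  obtain ⟨z, hzA, hz48, hz1⟩ : ∃ z : ℕ,
      |∏ q ∈ (Icc 1 z).filter Nat.Prime, artinFactor q - artinConst| < ε / 4 ∧
        48 / (z : ℝ) < ε / 4 ∧ 1 ≤ z := by
    have h1 := Metric.tendsto_nhds.1 tendsto_artinPartial (ε / 4) (by linarith)
    have h2 : ∀ᶠ z : ℕ in atTop, 48 / (z : ℝ) < ε / 4 :=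
      (tendsto_const_nhds.div_atTop tendsto_natCast_atTop_atTop).eventually
        (eventually_lt_nhds (by linarith))
    obtain ⟨z, ⟨hz, hz'⟩, hz''⟩ := ((h1.and h2).and (eventually_ge_atTop 1)).exists
    rw [Real.dist_eq] at hz
    exact ⟨z, hz, hz', hz''⟩
  have h3 : ∀ᶠ x : ℕ in atTop, Real.log x * (1 / (Nat.sqrt x : ℕ)) < ε / 4 := by
    have h : Tendsto (fun x : ℕ => 2 * (Real.log x / (x : ℝ) ^ (1 / 2 : ℝ))) atTop (𝓝 0) := by
      simpa using ((isLittleO_log_rpow_atTop (by norm_num : (0 : ℝ) < 1 / 2)).tendsto_div_nhds_zero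
        |>.comp tendsto_natCast_atTop_atTop).const_mul 2
    filter_upwards [h.eventually (eventually_lt_nhds (show (0 : ℝ) < ε / 4 by linarith)),
      eventually_ge_atTop 4] with x hx hx4
    refine lt_of_le_of_lt ?_ hx
    rw [← Real.sqrt_eq_rpow]
    have h1 : √(x : ℝ) < (Nat.sqrt x : ℕ) + 1 := Real.real_sqrt_lt_nat_sqrt_succ
    have h2 : (1 : ℝ) ≤ (Nat.sqrt x : ℕ) := Nat.one_le_cast.2 (Nat.sqrt_pos.2 (by omega))
    have h0 : 0 < √(x : ℝ) := Real.sqrt_pos.2 (Nat.cast_pos.2 (by omega))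
    rw [mul_one_div, mul_div_assoc', div_le_div_iff₀ (by linarith) h0]
    have := Real.log_natCast_nonneg x
    nlinarith
  filter_upwards [Metric.tendsto_nhds.1 (tendsto_cut z) (ε / 4) (by linarith), h3,
    eventually_ge_atTop 4] with x hx hx3 hx4
  rw [Real.dist_eq] at hx ⊢
  have hb := abs_sum_genShare_sub_le hz1 hx4
  have hL : 0 < Real.log x := Real.log_pos (by exact_mod_cast (by omega : 1 < x))
  have hx0 : (0 : ℝ) < x := Nat.cast_pos.2 (by omega)
  have hb' := div_le_div_of_nonneg_right (mul_le_mul_of_nonneg_right hb hL.le) hx0.le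
  rw [show (48 * x / Real.log x * (1 / z) + x * (1 / (Nat.sqrt x : ℕ))) * Real.log x / x =
      48 / (z : ℝ) + Real.log x * (1 / (Nat.sqrt x : ℕ)) by field_simp] at hb'
  rw [abs_lt] at hx hzA ⊢
  obtain ⟨a, b⟩ : -(48 / (z : ℝ) + Real.log x * (1 / (Nat.sqrt x : ℕ))) ≤
      (∑ p ∈ primesTo x, genShare (p - 1) - ∑ p ∈ primesTo x, cutShare z (p - 1)) *
        Real.log x / x ∧
      (∑ p ∈ primesTo x, genShare (p - 1) - ∑ p ∈ primesTo x, cutShare z (p - 1)) *
        Real.log x / x ≤ 48 / (z : ℝ) + Real.log x * (1 / (Nat.sqrt x : ℕ)) := by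
    refine abs_le.1 (le_trans (le_of_eq ?_) hb')
    rw [abs_div, abs_mul, abs_of_pos hL, abs_of_pos hx0]
  rw [sub_mul, sub_div] at a b
  constructor <;> linarith

end FA.ArtinAverage

end
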